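import Mathlib
import Fermat.Agent.LT.T3.OpSpec
import Fermat.Agent.LT.T3.H237.ConstTerm

/-!
# Row LT, tower T3, sub-leaf T3.12b `ConstTermTC` (helper315) -- OFF-MAIN

Registry row 955.  Spec files (byte-identical copies): `LT/T3/Spec.lean` v2 (helper14, sha256
44de320b8621), `LT/T3/EKSpec.lean` (sha256 d0ed12cc9599), `LT/T3/OpSpec.lean` (sha256
2a49d64e4190), `LT/H556/A0.lean` (helper556, sha256 66d3374a79ca).  Lemma file (byte-identical
copy): `LT/T3/H237/ConstTerm.lean` (helper237@27ada8482, sha256 3a7a14109e30).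

* `constTermT315 : InLocCompC K → InLatticeC K → InFundDomC K → HaarScaleC K → ConstTermTC K`
  = the leaf in the shape announced in the registry;
* `constTermTC_of315 : InLocCompC K → InLatticeC K → ConstTermTC K` (the last two hypotheses are
  not used: the product formula in measure form is `H237.measurePreserving_mulK237`).

The constant term `Ψ(g) = ∫_D ψ(n(x) g) dμ'(x)` of a bounded continuous automorphic `ψ` over a
fundamental domain `D` of `K` in `𝔸_K` is continuous, left invariant under `N(𝔸_K)` and under EVERY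
rational diagonal matrix `t = diag(a, b)`:
`n(x) t = t n(a⁻¹ b x)`, `ψ` is left invariant under `t`, and `x ↦ (a b⁻¹)⁻¹ x` preserves the
integral of a `K`-periodic function over `D`.  The constant term of `R(f)ψ` is `R(f)Ψ` (Fubini).
-/

set_option autoImplicit false
set_option linter.unusedSectionVars false
set_option linter.style.haveILetI false

open IsDedekindDomain NumberField MeasureTheory
open Fermat.Agent.LT.H556.A0

noncomputable section

namespace Fermat.Agent.LT.T3.H315

open Fermat.Agent.LT.T3.H237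

variable (K : Type) [Field K] [NumberField K]

/-- The entries of a rational diagonal matrix of `GL₂(K)` are not zero. -/
theorem diag_entries_ne_zero315 (t : GL (Fin 2) K) (a b : K)
    (ht : (t : Matrix (Fin 2) (Fin 2) K) = !![a, 0; 0, b]) : a ≠ 0 ∧ b ≠ 0 := by
  have hdet : IsUnit (t : Matrix (Fin 2) (Fin 2) K).det :=
    (Matrix.isUnit_iff_isUnit_det _).1 ⟨t, rfl⟩
  rw [ht, Matrix.det_fin_two_of] at hdet
  have hne : a * b - 0 * 0 ≠ 0 := hdet.ne_zero
  have hab : a * b ≠ 0 := by simpa using hne
  exact ⟨left_ne_zero_of_mul hab, right_ne_zero_of_mul hab⟩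

/-- The matrix of the image of a rational diagonal matrix in `GL₂(𝔸_K)`. -/
theorem map_diag_coe315 (t : GL (Fin 2) K) (a b : K)
    (ht : (t : Matrix (Fin 2) (Fin 2) K) = !![a, 0; 0, b]) :
    ((Matrix.GeneralLinearGroup.map (algebraMap K (Adl K)) t : G K) :
      Matrix (Fin 2) (Fin 2) (Adl K))
      = !![algebraMap K (Adl K) a, 0; 0, algebraMap K (Adl K) b] := by
  have h : ((Matrix.GeneralLinearGroup.map (algebraMap K (Adl K)) t : G K) :
      Matrix (Fin 2) (Fin 2) (Adl K))
      = (t : Matrix (Fin 2) (Fin 2) K).map (algebraMap K (Adl K)) := rfl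
  rw [h, ht]
  ext i j
  fin_cases i <;> fin_cases j <;> simp [Matrix.map_apply]

/-- `n(x) · diag(a, b) = diag(a, b) · n(a⁻¹ b x)`. -/
theorem unip_mul_diag315 (t : GL (Fin 2) K) (a b : K)
    (ht : (t : Matrix (Fin 2) (Fin 2) K) = !![a, 0; 0, b]) (x : Adl K) :
    unip K x * Matrix.GeneralLinearGroup.map (algebraMap K (Adl K)) t
      = Matrix.GeneralLinearGroup.map (algebraMap K (Adl K)) t
          * unip K (algebraMap K (Adl K) (a⁻¹ * b) * x) := by
  obtain ⟨ha, _⟩ := diag_entries_ne_zero315 K t a b ht
  have hkey : algebraMap K (Adl K) a * (algebraMap K (Adl K) (a⁻¹ * b) * x)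
      = x * algebraMap K (Adl K) b := by
    rw [← mul_assoc, ← map_mul, ← mul_assoc, mul_inv_cancel₀ ha, one_mul, mul_comm]
  apply Units.ext
  rw [Units.val_mul, Units.val_mul, map_diag_coe315 K t a b ht, unip_coe, unip_coe]
  ext i j
  fin_cases i <;> fin_cases j <;> simp [Matrix.mul_apply, Fin.sum_univ_two]
  rw [← map_mul]
  exact hkey.symm

section Main

variable [MeasurableSpace (Adl K)] [BorelSpace (Adl K)] [MeasurableSpace (G K)] [BorelSpace (G K)]
  [LocallyCompactSpace (Adl K)] [SecondCountableTopology (Adl K)]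
  [LocallyCompactSpace (G K)] [SecondCountableTopology (G K)]

/-- The constant term leaf for the full rational torus, with the topological facts as
instances. -/
theorem constTermT_aux315
    (hcoc : ∃ C : Set (Adl K), IsCompact C ∧ ∀ x : Adl K, ∃ ξ : K, x - algebraMap K (Adl K) ξ ∈ C)
    (μ : Measure (G K)) [μ.IsHaarMeasure]
    (f : G K → ℂ) (hf : Continuous f) (hfc : HasCompactSupport f)
    (ψ : G K → ℂ) (hψ : IsAutFn K ψ)
    (μ' : Measure (Adl K)) [μ'.IsAddHaarMeasure]
    (D : Set (Adl K)) (hD : IsAddFundamentalDomain (princ237 K) D μ') :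
    ∃ Ψ : G K → ℂ, IsBorelInv K Ψ ∧
      ∀ g : G K, ∫ x in D, Rop K μ f ψ (unip K x * g) ∂μ' = Rop K μ f Ψ g := by
  obtain ⟨C, hC⟩ := hψ.bdd
  have hDfin : μ' D < ⊤ := measure_fundDom_lt_top237 K μ' hcoc D hD
  haveI : IsFiniteMeasure (μ'.restrict D) := ⟨by simpa using hDfin⟩
  -- periodicity of `x ↦ ψ (n(x) g)`
  have hper : ∀ g : G K, IsPer237 K (fun x => ψ (unip K x * g)) := by
    intro g ξ x
    show ψ (unip K (x + algebraMap K (Adl K) ξ) * g) = ψ (unip K x * g)
    rw [add_comm, unip_add237, unip_emb237, mul_assoc]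
    exact hψ.left_inv _ _
  refine ⟨fun g => ∫ x in D, ψ (unip K x * g) ∂μ', ⟨?_, ?_, ?_⟩, ?_⟩
  · -- continuity
    refine continuous_of_dominated (bound := fun _ => C) ?_ ?_ ?_ ?_
    · intro g
      exact (hψ.cont.comp ((continuous_unip237 K).mul continuous_const)).aestronglyMeasurable
    · intro g
      exact Filter.Eventually.of_forall fun x => hC _
    · exact integrable_const _
    · exact Filter.Eventually.of_forall fun x =>
        hψ.cont.comp (continuous_const.mul continuous_id)
  · -- invariance under `N(𝔸_K)`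
    intro y g
    show ∫ x in D, ψ (unip K x * (unip K y * g)) ∂μ' = ∫ x in D, ψ (unip K x * g) ∂μ'
    have h := setIntegral_add_right237 K μ' D hD _ (hper g) y
    rw [← h]
    refine integral_congr_ae (Filter.Eventually.of_forall fun x => ?_)
    show ψ (unip K x * (unip K y * g)) = ψ (unip K (x + y) * g)
    rw [unip_add237, mul_assoc]
  · -- invariance under the rational diagonal matrices
    intro t a b ht g
    obtain ⟨ha, hb⟩ := diag_entries_ne_zero315 K t a b ht
    have hab : a * b⁻¹ ≠ 0 := mul_ne_zero ha (inv_ne_zero hb)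
    have hinv : (((Units.mk0 (a * b⁻¹) hab)⁻¹ : Kˣ) : K) = a⁻¹ * b := by
      rw [Units.val_inv_eq_inv_val, Units.val_mk0, mul_inv, inv_inv]
    show ∫ x in D, ψ (unip K x * (Matrix.GeneralLinearGroup.map (algebraMap K (Adl K)) t * g)) ∂μ'
      = ∫ x in D, ψ (unip K x * g) ∂μ'
    have h := setIntegral_mulK237 K μ' hcoc D hD _ (hper g) (Units.mk0 (a * b⁻¹) hab)
    rw [← h]
    refine integral_congr_ae (Filter.Eventually.of_forall fun x => ?_)
    show ψ (unip K x * (Matrix.GeneralLinearGroup.map (algebraMap K (Adl K)) t * g))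
      = ψ (unip K (algebraMap K (Adl K) (((Units.mk0 (a * b⁻¹) hab)⁻¹ : Kˣ) : K) * x) * g)
    rw [hinv, ← mul_assoc, unip_mul_diag315 K t a b ht, mul_assoc]
    exact hψ.left_inv _ _
  · -- Fubini
    intro g
    unfold Rop
    have hfi : Integrable f μ := hf.integrable_of_hasCompactSupport hfc
    have hb : Integrable (fun z : Adl K × G K => (fun _ : Adl K => C) z.1 * (fun h => ‖f h‖) z.2)
        ((μ'.restrict D).prod μ) :=
      Integrable.mul_prod (integrable_const C) hfi.norm
    have hcont : Continuous (Function.uncurry fun (x : Adl K) (h : G K) =>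
        ψ (unip K x * g * h) * f h) := by
      refine Continuous.mul (hψ.cont.comp ?_) (hf.comp continuous_snd)
      exact (((continuous_unip237 K).comp continuous_fst).mul continuous_const).mul continuous_snd
    have hint : Integrable (Function.uncurry fun (x : Adl K) (h : G K) =>
        ψ (unip K x * g * h) * f h) ((μ'.restrict D).prod μ) := by
      refine hb.mono' hcont.aestronglyMeasurable (Filter.Eventually.of_forall ?_)
      rintro ⟨x, h⟩
      show ‖ψ (unip K x * g * h) * f h‖ ≤ C * ‖f h‖
      rw [norm_mul]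
      exact mul_le_mul_of_nonneg_right (hC _) (norm_nonneg _)
    rw [integral_integral_swap hint]
    refine integral_congr_ae (Filter.Eventually.of_forall fun h => ?_)
    show ∫ x in D, ψ (unip K x * g * h) * f h ∂μ'
      = (∫ x in D, ψ (unip K x * (g * h)) ∂μ') * f h
    rw [integral_mul_const]
    simp only [mul_assoc]

end Main

/-- **T3.12b = `ConstTermTC`**, from local compactness and cocompactness only. -/
theorem constTermTC_of315 (hLC : InLocCompC K) (hLat : InLatticeC K) : ConstTermTC K := by
  obtain ⟨⟨hA1, _, hA3⟩, hG1, _, hG3⟩ := hLC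
  obtain ⟨_, _, hcoc⟩ := hLat
  intro μ hμ f hf hfc ψ hψ μ' hμ' D hD
  letI : MeasurableSpace (Adl K) := borel (Adl K)
  letI : MeasurableSpace (G K) := borel (G K)
  haveI : BorelSpace (Adl K) := ⟨rfl⟩
  haveI : BorelSpace (G K) := ⟨rfl⟩
  exact constTermT_aux315 K hcoc μ f hf hfc ψ hψ μ' D hD

/-- **T3.12b**, in the leaf shape of the registry (row 955):
`InLocCompC K → InLatticeC K → InFundDomC K → HaarScaleC K → ConstTermTC K`. -/
theorem constTermT315 :
    InLocCompC K → InLatticeC K → InFundDomC K → HaarScaleC K → ConstTermTC K :=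
  fun hLC hLat _ _ => constTermTC_of315 K hLC hLat

/-- By-product: the operator form of COROLLARY 1 (`OpSpec.ekCuspOp_of`) from the inputs of T1. -/
theorem ekCuspOpC_of315 (hLC : InLocCompC K) (hLat : InLatticeC K) : EKCuspOpC K :=
  ekCuspOp_of K (constTermTC_of315 K hLC hLat)

end Fermat.Agent.LT.T3.H315

end
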