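import Fermat.Agent.LT.T3.H736.ASSpec
import Fermat.Agent.LT.T3.H614.AbelCalc

/-!
# Row LT, tower T3, leaf AS.2 `AbelCplxC` (registry 1021) -- THE CUT (helper315)

OFF-MAIN.  Definitions, frozen sub-leaf Props and the PROVED top
`abelCplx_of315 : RegC → NIntC → SphContC → AvgC → IwaC → CalcC → AS.AbelCplxC`.
No hole, nothing assumed.  MATHLIB ONLY (no adeles): imports the byte-identical copies of
`LT/T3/H736/ASSpec.lean` (helper736@a78c5beca, sha256 a661c778: the frozen Prop `AS.AbelCplxC`) and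
of `LT/T3/H614/AbelCalc.lean` (helper614@bc549c9f6, sha256 2e11bd46: the one-variable Abel
calculus `abelInv614`, `chD614`, `abel_unipotent`, `spherical_zero`).

## The route: NO polar Jacobian

`G = GL₂(ℂ)`, `K = U(2)`, `μ` any Haar measure of `G`.

* the test function is FORCED: `abelFn β h = abelInv614 (E_c) (chD614 h)`, `c = log |det h|`,
  `E_c(u) = β((c+u)/2, (c-u)/2)` (`sliceE`), i.e. `F₀(r, c) = -∂_u β̃(r, c) / (2π sinh r)`;
* `AvgC` (K-AVERAGE): for `Ψ` of parameter `0` and `f` left `K`-invariant,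
  `∫ Ψ(y h) f(h) dμ = Ψ(y) ∫ φ₀(h) f(h) dμ`, `φ₀ = sph0 ∘ chD614` (`d / sinh d`).
  Proof: `∫ Ψ(y h) f(h) dμ = ∫ (∫_K Ψ(y k h) dk) f(h) dμ` (left invariance of `μ`, `f(k h) = f(h)`,
  Fubini) and `∫_K Ψ(y k h) dk = φ₀(h) Ψ(y)`: Cartan decomposition `h = k₁ torus(d) z k₂`
  (`CartanC`), right invariance of the Haar measure of the compact group `K` (`UnitaryHaarC`) and
  the mean value property of `Ψ` at the points `y k`, averaged over `k ∈ K`.  The Haar measure of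
  `K` is NOT needed in Euler angles.
* `IwaC` (IWASAWA, abstract): `∫_G Φ dμ = c ∫_{ℝ²} ∫_ℂ Φ(diag(e^{s₁}, e^{s₂}) n(x)) dx ds` for `Φ`
  right `K`-invariant.  Proof: `P = {upper triangular, positive diagonal}`, `G = P K`,
  `P ∩ K = 1`; the image of `μ` under `G → P` is a left Haar measure of `P`; Lebesgue measure in
  the coordinates `(s, x) ↦ diag(e^{s₁}, e^{s₂}) n(x)` is a left Haar measure of `P` (left
  translations are shears: `MeasurePreserving.skew_product`); uniqueness of the Haar measure.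
* `CalcC` (CALCULUS): `∫_{ℝ²} ∫_ℂ φ₀ F = ∫ β`: `chD614 = cosh u + (e^u / 2) |x|²`, `u = s₁ - s₂`,
  `integral_complex_affine_sq614`, `φ₀(cosh r) sinh r = r`, Fubini in `(u, r)`,
  `spherical_zero` of helper614, `(u, c) ↦ ((c+u)/2, (c-u)/2)` has Jacobian `1/2`.
* `NIntC` : `abel_unipotent` of helper614 and `x ↦ x / c₂`.
* `RegC`, `SphContC` : regularity (joint continuity in `(c, chD)`, compact support).
-/

set_option autoImplicit false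
set_option linter.style.haveILetI false

open MeasureTheory
open Fermat.Agent.LT.H556.A0 Fermat.Agent.LT.T3.AS Fermat.Agent.LT.T3.H614

noncomputable section

namespace Fermat.Agent.LT.T3.H315

/-! ## Definitions -/

/-- `E_c(u) = β((c+u)/2, (c-u)/2)`: the restriction of `β` to the line `x + y = c`. -/
def sliceE (β : ℝ × ℝ → ℂ) (c u : ℝ) : ℂ := β ((c + u) / 2, (c - u) / 2)

/-- THE TEST FUNCTION `F(h) = F₀(d(h), log |det h|)`, `F₀(r, c) = -∂_u β̃(r, c) / (2π sinh r)`. -/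
def abelFn (β : ℝ × ℝ → ℂ) (h : GL (Fin 2) ℂ) : ℂ :=
  abelInv614 (sliceE β (Real.log ‖(h : Matrix (Fin 2) (Fin 2) ℂ).det‖))
    (chD614 (h : Matrix (Fin 2) (Fin 2) ℂ))

/-- The spherical function of parameter `0` on `ℍ³` as a function of `X = cosh d`:
`d / sinh d`. -/
def sph0 (X : ℝ) : ℝ := if X ≤ 1 then 1 else Real.arcosh X / Real.sqrt (X ^ 2 - 1)

/-- The unit `e^t` of `ℂ`. -/
def expU (t : ℝ) : ℂˣ := Units.mk0 ((Real.exp t : ℝ) : ℂ) (by exact_mod_cast (Real.exp_pos t).ne')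

/-- THE IWASAWA CHART `(s, x) ↦ diag(e^{s₁}, e^{s₂}) n(x) = [[e^{s₁}, e^{s₁} x], [0, e^{s₂}]]`. -/
def iwa (s : ℝ × ℝ) (x : ℂ) : GL (Fin 2) ℂ :=
  upperGL (expU s.1) (expU s.2) (((Real.exp s.1 : ℝ) : ℂ) * x)

theorem iwa_coe (s : ℝ × ℝ) (x : ℂ) :
    ((iwa s x : GL (Fin 2) ℂ) : Matrix (Fin 2) (Fin 2) ℂ)
      = !![((Real.exp s.1 : ℝ) : ℂ), ((Real.exp s.1 : ℝ) : ℂ) * x; 0, ((Real.exp s.2 : ℝ) : ℂ)] :=
  rfl

/-! ## The sub-leaves -/

/-- **AS.2.1 REG.**  The test function is continuous, of compact support, bi-`U(2)`-invariant. -/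
def RegC : Prop := ∀ β : ℝ × ℝ → ℂ, IsSymBump β → IsCplxTest (abelFn β)

/-- **AS.2.2 NINT.**  The `N`-integral of the test function is `β`. -/
def NIntC : Prop := ∀ β : ℝ × ℝ → ℂ, IsSymBump β → HasAbelN (abelFn β) β

/-- **AS.2.3 SPHCONT.**  `h ↦ φ₀(h) = d(h) / sinh d(h)` is continuous on `GL₂(ℂ)`. -/
def SphContC : Prop :=
  Continuous fun h : GL (Fin 2) ℂ => ((sph0 (chD614 (h : Matrix (Fin 2) (Fin 2) ℂ)) : ℝ) : ℂ)

/-- **AS.2.4 AVG (K-average).**  For every Haar measure, every `Ψ` of parameter `0` and every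
continuous `f` of compact support which is LEFT invariant under `U(2)`:
`∫ Ψ(y h) f(h) dμ(h) = Ψ(y) ∫ φ₀(h) f(h) dμ(h)`. -/
def AvgC : Prop :=
  letI : MeasurableSpace (GL (Fin 2) ℂ) := borel (GL (Fin 2) ℂ)
  ∀ μ : Measure (GL (Fin 2) ℂ), μ.IsHaarMeasure →
  ∀ Ψ : GL (Fin 2) ℂ → ℂ, IsLocSph0 Ψ →
  ∀ f : GL (Fin 2) ℂ → ℂ, Continuous f → HasCompactSupport f →
    (∀ k h : GL (Fin 2) ℂ, IsUnitary2 k → f (k * h) = f h) →
    ∀ y : GL (Fin 2) ℂ, ∫ h, Ψ (y * h) * f h ∂μ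
      = Ψ y * ∫ h, ((sph0 (chD614 (h : Matrix (Fin 2) (Fin 2) ℂ)) : ℝ) : ℂ) * f h ∂μ

/-- **AS.2.5 IWA (Iwasawa integration formula, abstract form).**  There is a Haar measure `μ` of
`GL₂(ℂ)` and `c > 0` with `∫ Φ dμ = c ∫_{ℝ²} ∫_ℂ Φ(diag(e^{s₁}, e^{s₂}) n(x)) dx ds` for every
continuous `Φ` of compact support which is RIGHT invariant under `U(2)`. -/
def IwaC : Prop :=
  letI : MeasurableSpace (GL (Fin 2) ℂ) := borel (GL (Fin 2) ℂ)
  ∃ μ : Measure (GL (Fin 2) ℂ), μ.IsHaarMeasure ∧ ∃ c : ℝ, 0 < c ∧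
    ∀ Φ : GL (Fin 2) ℂ → ℂ, Continuous Φ → HasCompactSupport Φ →
      (∀ k h : GL (Fin 2) ℂ, IsUnitary2 k → Φ (h * k) = Φ h) →
      ∫ h, Φ h ∂μ = (c : ℂ) * ∫ s : ℝ × ℝ, ∫ x : ℂ, Φ (iwa s x)

/-- **AS.2.6 CALC.**  `∫_{ℝ²} ∫_ℂ φ₀(b) F(b) dx ds = ∫_{ℝ²} β`, `b = diag(e^{s₁}, e^{s₂}) n(x)`. -/
def CalcC : Prop :=
  ∀ β : ℝ × ℝ → ℂ, IsSymBump β →
    ∫ s : ℝ × ℝ, ∫ x : ℂ,
        ((sph0 (chD614 ((iwa s x : GL (Fin 2) ℂ) : Matrix (Fin 2) (Fin 2) ℂ)) : ℝ) : ℂ)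
          * abelFn β (iwa s x)
      = ∫ p : ℝ × ℝ, β p

/-! ### The cut of AVG -/

/-- **AS.2.4a CARTAN** (singular values of a `2 × 2` matrix).  Every `h ∈ GL₂(ℂ)` is
`k₁ · torus(d) · (r · 1) · k₂` with `k₁, k₂ ∈ U(2)`, `r > 0`, `d ≥ 0`, `cosh d = chD614 h`. -/
def CartanC : Prop :=
  ∀ h : GL (Fin 2) ℂ, ∃ (k₁ k₂ t z : GL (Fin 2) ℂ) (d r : ℝ), IsUnitary2 k₁ ∧ IsUnitary2 k₂ ∧
    0 ≤ d ∧ 0 < r ∧ Real.cosh d = chD614 (h : Matrix (Fin 2) (Fin 2) ℂ) ∧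
    (t : Matrix (Fin 2) (Fin 2) ℂ) = torus d ∧
    (z : Matrix (Fin 2) (Fin 2) ℂ) = Matrix.diagonal (fun _ => (r : ℂ)) ∧
    h = k₁ * t * z * k₂

/-- **AS.2.4b UHAAR** (the Haar measure of the compact group `U(2)`, as a measure on `GL₂(ℂ)`).
`U(2)` is compact in `GL₂(ℂ)` and there is a probability measure on `GL₂(ℂ)`, carried by `U(2)`,
invariant under left and right translations by `U(2)`. -/
def UnitaryHaarC : Prop :=
  letI : MeasurableSpace (GL (Fin 2) ℂ) := borel (GL (Fin 2) ℂ)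
  IsCompact {k : GL (Fin 2) ℂ | IsUnitary2 k} ∧
  ∃ m : Measure (GL (Fin 2) ℂ), IsProbabilityMeasure m ∧
    (∀ᵐ k ∂m, IsUnitary2 k) ∧
    ∀ k₀ : GL (Fin 2) ℂ, IsUnitary2 k₀ →
      Measure.map (fun k => k₀ * k) m = m ∧ Measure.map (fun k => k * k₀) m = m

/-- **AS.2.4c AVGCORE.**  `CartanC → UnitaryHaarC → AvgC`. -/
def AvgCoreC : Prop := CartanC → UnitaryHaarC → AvgC

/-! ## The top (PROVED) -/

theorem isUnitary2_one315 : IsUnitary2 (1 : GL (Fin 2) ℂ) := by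
  unfold IsUnitary2
  simp

/-- **THE TOP of AS.2**: the frozen Prop `AS.AbelCplxC` from the six sub-leaves. -/
theorem abelCplx_of315 (hreg : RegC) (hn : NIntC) (hs : SphContC) (ha : AvgC) (hi : IwaC)
    (hc : CalcC) : AbelCplxC := by
  letI : MeasurableSpace (GL (Fin 2) ℂ) := borel (GL (Fin 2) ℂ)
  obtain ⟨μ, hμ, c, hc0, hiwa⟩ := hi
  refine ⟨μ, hμ, (c : ℂ), by exact_mod_cast hc0.ne', ?_⟩
  intro β hβ
  have hF := hreg β hβ
  refine ⟨abelFn β, hF, hn β hβ, ?_⟩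
  intro Ψ hΨ y
  have hleft : ∀ k h : GL (Fin 2) ℂ, IsUnitary2 k → abelFn β (k * h) = abelFn β h := by
    intro k h hk
    have := hF.bi_inv k 1 h hk isUnitary2_one315
    simpa using this
  have hright : ∀ k h : GL (Fin 2) ℂ, IsUnitary2 k → abelFn β (h * k) = abelFn β h := by
    intro k h hk
    have := hF.bi_inv 1 k h isUnitary2_one315 hk
    simpa using this
  rw [ha μ hμ Ψ hΨ (abelFn β) hF.cont hF.supp hleft y]
  have hΦc : Continuous fun h : GL (Fin 2) ℂ =>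
      ((sph0 (chD614 (h : Matrix (Fin 2) (Fin 2) ℂ)) : ℝ) : ℂ) * abelFn β h := hs.mul hF.cont
  have hΦs : HasCompactSupport fun h : GL (Fin 2) ℂ =>
      ((sph0 (chD614 (h : Matrix (Fin 2) (Fin 2) ℂ)) : ℝ) : ℂ) * abelFn β h :=
    hF.supp.mul_left
  have hΦk : ∀ k h : GL (Fin 2) ℂ, IsUnitary2 k →
      ((sph0 (chD614 ((h * k : GL (Fin 2) ℂ) : Matrix (Fin 2) (Fin 2) ℂ)) : ℝ) : ℂ)
          * abelFn β (h * k)
        = ((sph0 (chD614 (h : Matrix (Fin 2) (Fin 2) ℂ)) : ℝ) : ℂ) * abelFn β h := by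
    intro k h hk
    have hk' : (k : Matrix (Fin 2) (Fin 2) ℂ) * (k : Matrix (Fin 2) (Fin 2) ℂ).conjTranspose = 1 :=
      hk
    rw [hright k h hk, Units.val_mul, chD614_mul_unitary_right _ _ hk']
  have hΦ : ∫ h, ((sph0 (chD614 (h : Matrix (Fin 2) (Fin 2) ℂ)) : ℝ) : ℂ) * abelFn β h ∂μ
      = (c : ℂ) * ∫ p : ℝ × ℝ, β p := by
    rw [hiwa (fun h : GL (Fin 2) ℂ =>
      ((sph0 (chD614 (h : Matrix (Fin 2) (Fin 2) ℂ)) : ℝ) : ℂ) * abelFn β h) hΦc hΦs hΦk,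
      hc β hβ]
  rw [hΦ]
  ring

/-- `AvgC` from its cut. -/
theorem avg_of315 (h1 : CartanC) (h2 : UnitaryHaarC) (h3 : AvgCoreC) : AvgC := h3 h1 h2

end Fermat.Agent.LT.T3.H315

end
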