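import Fermat.Agent.LT.T3.H315.IwaMeas
import Fermat.Agent.LT.T3.H811.Reg
import Fermat.Agent.LT.T3.H157.NInt
import Fermat.Agent.LT.T3.H166.SphCont
import Fermat.Agent.LT.T3.H203.Cartan
import Fermat.Agent.LT.T3.H572.UnitaryHaar
import Fermat.Agent.LT.T3.H694.AvgCore

/-!
# Row LT, tower T3, leaf AS.2 `AbelCplxC` (registry 1021, helper315): INTEGRATION

OFF-MAIN.  Imports byte-identical copies of the volunteers' files and discharges the closed
sub-leaves of the cut `AbelCut.lean`:

| sub-leaf | closed by |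
|---|---|
| AS.2.1 `RegC` | helper811 `regC811` |
| AS.2.2 `NIntC` | helper157 `nIntC157` |
| AS.2.3 `SphContC` | helper166 `sphContC166` |
| AS.2.4a `CartanC` | helper203 `cartanC203` |
| AS.2.4b `UnitaryHaarC` | helper572 `unitaryHaarC572` |
| AS.2.4c `AvgCoreC` | helper694 `avgCoreC694` |
| AS.2.5 `IwaC` | helper315 `iwaC315` |

`abelCplx_of_calc315 : CalcC → AS.AbelCplxC` is the state of the leaf: `CalcC` (AS.2.6) is the
only sub-leaf still open.
-/

set_option autoImplicit false

namespace Fermat.Agent.LT.T3.H315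

/-- `AvgC` is closed. -/
theorem avgC_closed315 : AvgC :=
  avg_of315 Fermat.Agent.LT.T3.H203.cartanC203 Fermat.Agent.LT.T3.H572.unitaryHaarC572
    Fermat.Agent.LT.T3.H694.avgCoreC694

/-- STATE OF THE LEAF AS.2: everything but the calculus identity `CalcC` is closed. -/
theorem abelCplx_of_calc315 (hc : CalcC) : Fermat.Agent.LT.T3.AS.AbelCplxC :=
  abelCplx_of315 Fermat.Agent.LT.T3.H811.regC811 Fermat.Agent.LT.T3.H157.nIntC157
    Fermat.Agent.LT.T3.H166.sphContC166 avgC_closed315 iwaC315 hc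

end Fermat.Agent.LT.T3.H315
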