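import Fermat.Agent.LT.T3.H315.AbelCut

/-!
# Row LT, tower T3, leaf AS.2.5 `IwaC` (registry 1176, helper315) -- part 1: algebra

OFF-MAIN.  Mathlib only (plus the definitions of `AbelCut.lean`).

* `Pc` : the group `P` of upper triangular matrices with positive diagonal, in the coordinates
  `(s, x) ↦ iwa s x = diag(e^{s₁}, e^{s₂}) n(x)`; group law
  `(s', x') * (s, x) = (s' + s, x + e^{s₂ - s₁} x')`;
* `iwaP : Pc → GL₂(ℂ)` is multiplicative (`iwaP_mul`);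
* `rhoP : GL₂(ℂ) → Pc` the Iwasawa projection, `rhoP (iwaP b * h) = b * rhoP h` (`rhoP_mul`),
  `rhoP (iwaP p) = p`, and `h = iwaP (rhoP h) * k` with `k ∈ U(2)` (`exists_unitary_rhoP`).
-/

set_option autoImplicit false
set_option linter.unusedSimpArgs false
set_option linter.unusedTactic false
set_option linter.unreachableTactic false

open Fermat.Agent.LT.H556.A0 Fermat.Agent.LT.T3.AS Fermat.Agent.LT.T3.H614
open scoped ComplexConjugate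

noncomputable section

namespace Fermat.Agent.LT.T3.H315

/-- The coordinates `(s, x)` of the group `P`. -/
def Pc : Type := (ℝ × ℝ) × ℂ

namespace Pc

instance : TopologicalSpace Pc := inferInstanceAs (TopologicalSpace ((ℝ × ℝ) × ℂ))
instance : T2Space Pc := inferInstanceAs (T2Space ((ℝ × ℝ) × ℂ))
instance : LocallyCompactSpace Pc := inferInstanceAs (LocallyCompactSpace ((ℝ × ℝ) × ℂ))
instance : SecondCountableTopology Pc :=
  inferInstanceAs (SecondCountableTopology ((ℝ × ℝ) × ℂ))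
instance : MeasurableSpace Pc := inferInstanceAs (MeasurableSpace ((ℝ × ℝ) × ℂ))
instance : BorelSpace Pc := inferInstanceAs (BorelSpace ((ℝ × ℝ) × ℂ))

/-- Constructor. -/
def mk (s₁ s₂ : ℝ) (x : ℂ) : Pc := ((s₁, s₂), x)

/-- First exponent. -/
def s1 (p : Pc) : ℝ := (p : (ℝ × ℝ) × ℂ).1.1
/-- Second exponent. -/
def s2 (p : Pc) : ℝ := (p : (ℝ × ℝ) × ℂ).1.2
/-- Unipotent coordinate. -/
def xc (p : Pc) : ℂ := (p : (ℝ × ℝ) × ℂ).2

@[ext] theorem ext {p q : Pc} (h1 : p.s1 = q.s1) (h2 : p.s2 = q.s2) (h3 : p.xc = q.xc) : p = q :=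
  Prod.ext (Prod.ext h1 h2) h3

@[simp] theorem s1_mk (s₁ s₂ : ℝ) (x : ℂ) : (mk s₁ s₂ x).s1 = s₁ := rfl
@[simp] theorem s2_mk (s₁ s₂ : ℝ) (x : ℂ) : (mk s₁ s₂ x).s2 = s₂ := rfl
@[simp] theorem xc_mk (s₁ s₂ : ℝ) (x : ℂ) : (mk s₁ s₂ x).xc = x := rfl

instance : Mul Pc :=
  ⟨fun p q => mk (p.s1 + q.s1) (p.s2 + q.s2) (q.xc + ((Real.exp (q.s2 - q.s1) : ℝ) : ℂ) * p.xc)⟩
instance : One Pc := ⟨mk 0 0 0⟩
instance : Inv Pc :=
  ⟨fun p => mk (-p.s1) (-p.s2) (-(((Real.exp (p.s1 - p.s2) : ℝ) : ℂ) * p.xc))⟩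

@[simp] theorem s1_mul (p q : Pc) : (p * q).s1 = p.s1 + q.s1 := rfl
@[simp] theorem s2_mul (p q : Pc) : (p * q).s2 = p.s2 + q.s2 := rfl
@[simp] theorem xc_mul (p q : Pc) :
    (p * q).xc = q.xc + ((Real.exp (q.s2 - q.s1) : ℝ) : ℂ) * p.xc := rfl
@[simp] theorem s1_one : (1 : Pc).s1 = 0 := rfl
@[simp] theorem s2_one : (1 : Pc).s2 = 0 := rfl
@[simp] theorem xc_one : (1 : Pc).xc = 0 := rfl
@[simp] theorem s1_inv (p : Pc) : (p⁻¹).s1 = -p.s1 := rfl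
@[simp] theorem s2_inv (p : Pc) : (p⁻¹).s2 = -p.s2 := rfl
@[simp] theorem xc_inv (p : Pc) :
    (p⁻¹).xc = -(((Real.exp (p.s1 - p.s2) : ℝ) : ℂ) * p.xc) := rfl

instance : Group Pc :=
  Group.ofLeftAxioms
    (by
      intro p q r
      ext
      · simp [add_assoc]
      · simp [add_assoc]
      · simp only [xc_mul, s1_mul, s2_mul]
        have : Real.exp (q.s2 + r.s2 - (q.s1 + r.s1))
            = Real.exp (r.s2 - r.s1) * Real.exp (q.s2 - q.s1) := by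
          rw [← Real.exp_add]; congr 1; ring
        rw [this]
        push_cast
        ring)
    (by
      intro p
      ext <;> simp)
    (by
      intro p
      ext
      · simp
      · simp
      · simp only [xc_mul, xc_inv, xc_one]
        have : ((Real.exp (p.s2 - p.s1) : ℝ) : ℂ) * ((Real.exp (p.s1 - p.s2) : ℝ) : ℂ) = 1 := by
          rw [← Complex.ofReal_mul, ← Real.exp_add]
          simp
        linear_combination -(p.xc) * this)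

end Pc

/-- The chart `Pc → GL₂(ℂ)`. -/
def iwaP (p : Pc) : GL (Fin 2) ℂ := iwa (p.s1, p.s2) p.xc

theorem iwaP_coe (p : Pc) :
    ((iwaP p : GL (Fin 2) ℂ) : Matrix (Fin 2) (Fin 2) ℂ)
      = !![((Real.exp p.s1 : ℝ) : ℂ), ((Real.exp p.s1 : ℝ) : ℂ) * p.xc;
          0, ((Real.exp p.s2 : ℝ) : ℂ)] :=
  rfl

theorem iwaP_mul (p q : Pc) : iwaP (p * q) = iwaP p * iwaP q := by
  apply Units.ext
  rw [Units.val_mul, iwaP_coe, iwaP_coe, iwaP_coe]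
  ext i j
  fin_cases i <;> fin_cases j <;>
    simp [Matrix.mul_apply, Fin.sum_univ_two, Real.exp_add, Real.exp_sub]
  have h1 : Complex.exp (q.s1 : ℂ) ≠ 0 := Complex.exp_ne_zero _
  field_simp

/-! ## The Iwasawa projection -/

/-- The norm of the bottom row. -/
def botN (h : Matrix (Fin 2) (Fin 2) ℂ) : ℝ := Real.sqrt (‖h 1 0‖ ^ 2 + ‖h 1 1‖ ^ 2)

/-- The Iwasawa projection `GL₂(ℂ) → P`, in coordinates: for `h = [[a, b], [c, e]]`,
`e^{s₂} = √(|c|² + |e|²)`, `e^{s₁} = |det h| / e^{s₂}`, `x = (a c̄ + b ē) / |det h|`. -/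
def rhoP (h : GL (Fin 2) ℂ) : Pc :=
  Pc.mk (Real.log ‖(h : Matrix (Fin 2) (Fin 2) ℂ).det‖
        - Real.log (botN (h : Matrix (Fin 2) (Fin 2) ℂ)))
    (Real.log (botN (h : Matrix (Fin 2) (Fin 2) ℂ)))
    (((h : Matrix (Fin 2) (Fin 2) ℂ) 0 0 * conj ((h : Matrix (Fin 2) (Fin 2) ℂ) 1 0)
        + (h : Matrix (Fin 2) (Fin 2) ℂ) 0 1 * conj ((h : Matrix (Fin 2) (Fin 2) ℂ) 1 1))
      / ((‖(h : Matrix (Fin 2) (Fin 2) ℂ).det‖ : ℝ) : ℂ))

theorem det_ne_zero315 (h : GL (Fin 2) ℂ) : (h : Matrix (Fin 2) (Fin 2) ℂ).det ≠ 0 := by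
  have hdet : IsUnit (h : Matrix (Fin 2) (Fin 2) ℂ).det :=
    (Matrix.isUnit_iff_isUnit_det _).1 ⟨h, rfl⟩
  exact hdet.ne_zero

theorem norm_det_pos315 (h : GL (Fin 2) ℂ) : 0 < ‖(h : Matrix (Fin 2) (Fin 2) ℂ).det‖ :=
  norm_pos_iff.2 (det_ne_zero315 h)

theorem botN_sq_pos315 (h : GL (Fin 2) ℂ) :
    0 < ‖(h : Matrix (Fin 2) (Fin 2) ℂ) 1 0‖ ^ 2 + ‖(h : Matrix (Fin 2) (Fin 2) ℂ) 1 1‖ ^ 2 := by
  by_contra hcon
  have h0 : ‖(h : Matrix (Fin 2) (Fin 2) ℂ) 1 0‖ ^ 2 + ‖(h : Matrix (Fin 2) (Fin 2) ℂ) 1 1‖ ^ 2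
      = 0 := le_antisymm (not_lt.1 hcon) (by positivity)
  have h1 : ‖(h : Matrix (Fin 2) (Fin 2) ℂ) 1 0‖ = 0 := by
    nlinarith [norm_nonneg ((h : Matrix (Fin 2) (Fin 2) ℂ) 1 0),
      norm_nonneg ((h : Matrix (Fin 2) (Fin 2) ℂ) 1 1)]
  have h2 : ‖(h : Matrix (Fin 2) (Fin 2) ℂ) 1 1‖ = 0 := by
    nlinarith [norm_nonneg ((h : Matrix (Fin 2) (Fin 2) ℂ) 1 0),
      norm_nonneg ((h : Matrix (Fin 2) (Fin 2) ℂ) 1 1)]
  apply det_ne_zero315 h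
  rw [Matrix.det_fin_two, norm_eq_zero.1 h1, norm_eq_zero.1 h2]
  simp

theorem botN_pos315 (h : GL (Fin 2) ℂ) : 0 < botN (h : Matrix (Fin 2) (Fin 2) ℂ) :=
  Real.sqrt_pos.2 (botN_sq_pos315 h)

theorem botN_sq315 (h : Matrix (Fin 2) (Fin 2) ℂ) : botN h ^ 2 = ‖h 1 0‖ ^ 2 + ‖h 1 1‖ ^ 2 :=
  Real.sq_sqrt (by positivity)

@[simp] theorem exp_s2_rhoP (h : GL (Fin 2) ℂ) :
    Real.exp (rhoP h).s2 = botN (h : Matrix (Fin 2) (Fin 2) ℂ) := by
  simp [rhoP, Real.exp_log (botN_pos315 h)]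

@[simp] theorem exp_s1_rhoP (h : GL (Fin 2) ℂ) :
    Real.exp (rhoP h).s1
      = ‖(h : Matrix (Fin 2) (Fin 2) ℂ).det‖ / botN (h : Matrix (Fin 2) (Fin 2) ℂ) := by
  simp [rhoP, Real.exp_sub, Real.exp_log (botN_pos315 h), Real.exp_log (norm_det_pos315 h)]

/-- The entries of `iwaP b * h`. -/
theorem iwaP_mul_coe (b : Pc) (h : GL (Fin 2) ℂ) :
    ((iwaP b * h : GL (Fin 2) ℂ) : Matrix (Fin 2) (Fin 2) ℂ)
      = !![((Real.exp b.s1 : ℝ) : ℂ) * ((h : Matrix (Fin 2) (Fin 2) ℂ) 0 0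
              + b.xc * (h : Matrix (Fin 2) (Fin 2) ℂ) 1 0),
            ((Real.exp b.s1 : ℝ) : ℂ) * ((h : Matrix (Fin 2) (Fin 2) ℂ) 0 1
              + b.xc * (h : Matrix (Fin 2) (Fin 2) ℂ) 1 1);
          ((Real.exp b.s2 : ℝ) : ℂ) * (h : Matrix (Fin 2) (Fin 2) ℂ) 1 0,
            ((Real.exp b.s2 : ℝ) : ℂ) * (h : Matrix (Fin 2) (Fin 2) ℂ) 1 1] := by
  rw [Units.val_mul, iwaP_coe]
  ext i j
  fin_cases i <;> fin_cases j <;> simp [Matrix.mul_apply, Fin.sum_univ_two] <;> ring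

theorem norm_det_iwaP_mul (b : Pc) (h : GL (Fin 2) ℂ) :
    ‖((iwaP b * h : GL (Fin 2) ℂ) : Matrix (Fin 2) (Fin 2) ℂ).det‖
      = Real.exp b.s1 * Real.exp b.s2 * ‖(h : Matrix (Fin 2) (Fin 2) ℂ).det‖ := by
  rw [Units.val_mul, Matrix.det_mul, iwaP_coe, Matrix.det_fin_two_of, norm_mul]
  congr 1
  rw [mul_zero, sub_zero, norm_mul, Complex.norm_real, Complex.norm_real, Real.norm_eq_abs,
    Real.norm_eq_abs, abs_of_pos (Real.exp_pos _), abs_of_pos (Real.exp_pos _)]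

theorem botN_iwaP_mul (b : Pc) (h : GL (Fin 2) ℂ) :
    botN ((iwaP b * h : GL (Fin 2) ℂ) : Matrix (Fin 2) (Fin 2) ℂ)
      = Real.exp b.s2 * botN (h : Matrix (Fin 2) (Fin 2) ℂ) := by
  rw [iwaP_mul_coe]
  unfold botN
  simp only [Matrix.of_apply, Matrix.cons_val', Matrix.cons_val_zero, Matrix.cons_val_one,
    Matrix.cons_val_fin_one, norm_mul, Complex.norm_real, Real.norm_eq_abs,
    abs_of_pos (Real.exp_pos _)]
  rw [show (Real.exp b.s2 * ‖(h : Matrix (Fin 2) (Fin 2) ℂ) 1 0‖) ^ 2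
      + (Real.exp b.s2 * ‖(h : Matrix (Fin 2) (Fin 2) ℂ) 1 1‖) ^ 2
      = Real.exp b.s2 ^ 2 * (‖(h : Matrix (Fin 2) (Fin 2) ℂ) 1 0‖ ^ 2
        + ‖(h : Matrix (Fin 2) (Fin 2) ℂ) 1 1‖ ^ 2) by ring]
  rw [Real.sqrt_mul (sq_nonneg _), Real.sqrt_sq (Real.exp_pos _).le]

/-- **Equivariance of the Iwasawa projection.** -/
theorem rhoP_mul (b : Pc) (h : GL (Fin 2) ℂ) : rhoP (iwaP b * h) = b * rhoP h := by
  have hd := norm_det_pos315 h
  have hn := botN_pos315 h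
  have e1 := Real.exp_pos b.s1
  have e2 := Real.exp_pos b.s2
  ext
  · show Real.log ‖((iwaP b * h : GL (Fin 2) ℂ) : Matrix (Fin 2) (Fin 2) ℂ).det‖
        - Real.log (botN ((iwaP b * h : GL (Fin 2) ℂ) : Matrix (Fin 2) (Fin 2) ℂ))
      = b.s1 + (Real.log ‖(h : Matrix (Fin 2) (Fin 2) ℂ).det‖
        - Real.log (botN (h : Matrix (Fin 2) (Fin 2) ℂ)))
    rw [norm_det_iwaP_mul, botN_iwaP_mul, Real.log_mul (by positivity) hd.ne',
      Real.log_mul e1.ne' e2.ne', Real.log_mul e2.ne' hn.ne', Real.log_exp, Real.log_exp]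
    ring
  · show Real.log (botN ((iwaP b * h : GL (Fin 2) ℂ) : Matrix (Fin 2) (Fin 2) ℂ))
      = b.s2 + Real.log (botN (h : Matrix (Fin 2) (Fin 2) ℂ))
    rw [botN_iwaP_mul, Real.log_mul e2.ne' hn.ne', Real.log_exp]
  · rw [Pc.xc_mul, Real.exp_sub, exp_s2_rhoP, exp_s1_rhoP]
    show (((iwaP b * h : GL (Fin 2) ℂ) : Matrix (Fin 2) (Fin 2) ℂ) 0 0
          * conj (((iwaP b * h : GL (Fin 2) ℂ) : Matrix (Fin 2) (Fin 2) ℂ) 1 0)
        + ((iwaP b * h : GL (Fin 2) ℂ) : Matrix (Fin 2) (Fin 2) ℂ) 0 1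
          * conj (((iwaP b * h : GL (Fin 2) ℂ) : Matrix (Fin 2) (Fin 2) ℂ) 1 1))
        / ((‖((iwaP b * h : GL (Fin 2) ℂ) : Matrix (Fin 2) (Fin 2) ℂ).det‖ : ℝ) : ℂ)
      = ((h : Matrix (Fin 2) (Fin 2) ℂ) 0 0 * conj ((h : Matrix (Fin 2) (Fin 2) ℂ) 1 0)
          + (h : Matrix (Fin 2) (Fin 2) ℂ) 0 1 * conj ((h : Matrix (Fin 2) (Fin 2) ℂ) 1 1))
          / ((‖(h : Matrix (Fin 2) (Fin 2) ℂ).det‖ : ℝ) : ℂ)
        + ((botN (h : Matrix (Fin 2) (Fin 2) ℂ)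
            / (‖(h : Matrix (Fin 2) (Fin 2) ℂ).det‖ / botN (h : Matrix (Fin 2) (Fin 2) ℂ)) : ℝ) : ℂ)
          * b.xc
    rw [norm_det_iwaP_mul, iwaP_mul_coe]
    simp only [Matrix.of_apply, Matrix.cons_val', Matrix.cons_val_zero, Matrix.cons_val_one,
      Matrix.cons_val_fin_one, map_mul, Complex.conj_ofReal]
    have hN : ((botN (h : Matrix (Fin 2) (Fin 2) ℂ) : ℝ) : ℂ)
          * ((botN (h : Matrix (Fin 2) (Fin 2) ℂ) : ℝ) : ℂ)
        = (h : Matrix (Fin 2) (Fin 2) ℂ) 1 0 * conj ((h : Matrix (Fin 2) (Fin 2) ℂ) 1 0)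
          + (h : Matrix (Fin 2) (Fin 2) ℂ) 1 1 * conj ((h : Matrix (Fin 2) (Fin 2) ℂ) 1 1) := by
      rw [Complex.mul_conj, Complex.mul_conj, Complex.normSq_eq_norm_sq,
        Complex.normSq_eq_norm_sq, ← Complex.ofReal_mul, ← Complex.ofReal_add, ← botN_sq315]
      ring_nf
    have hdC : ((‖(h : Matrix (Fin 2) (Fin 2) ℂ).det‖ : ℝ) : ℂ) ≠ 0 := by
      exact_mod_cast hd.ne'
    have hnC : ((botN (h : Matrix (Fin 2) (Fin 2) ℂ) : ℝ) : ℂ) ≠ 0 := by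
      exact_mod_cast hn.ne'
    have e1C : ((Real.exp b.s1 : ℝ) : ℂ) ≠ 0 := by exact_mod_cast e1.ne'
    have e2C : ((Real.exp b.s2 : ℝ) : ℂ) ≠ 0 := by exact_mod_cast e2.ne'
    push_cast
    field_simp
    linear_combination (-b.xc) * hN

theorem botN_mul_self_C315 (h : Matrix (Fin 2) (Fin 2) ℂ) :
    ((botN h : ℝ) : ℂ) * ((botN h : ℝ) : ℂ) = h 1 0 * conj (h 1 0) + h 1 1 * conj (h 1 1) := by
  rw [Complex.mul_conj, Complex.mul_conj, Complex.normSq_eq_norm_sq,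
    Complex.normSq_eq_norm_sq, ← Complex.ofReal_mul, ← Complex.ofReal_add, ← botN_sq315]
  ring_nf

theorem norm_det_mul_self_C315 (h : Matrix (Fin 2) (Fin 2) ℂ) :
    ((‖h.det‖ : ℝ) : ℂ) * ((‖h.det‖ : ℝ) : ℂ)
      = (h 0 0 * h 1 1 - h 0 1 * h 1 0) * (conj (h 0 0) * conj (h 1 1) - conj (h 0 1) * conj (h 1 0)) := by
  have : (h 0 0 * h 1 1 - h 0 1 * h 1 0) * (conj (h 0 0) * conj (h 1 1) - conj (h 0 1) * conj (h 1 0))
      = h.det * conj h.det := by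
    rw [Matrix.det_fin_two]
    simp only [map_sub, map_mul]
  rw [this, Complex.mul_conj, Complex.normSq_eq_norm_sq, ← Complex.ofReal_mul]
  ring_nf

/-- **The Gram matrices of `h` and of its Iwasawa projection agree.** -/
theorem gram_rhoP (h : GL (Fin 2) ℂ) :
    (h : Matrix (Fin 2) (Fin 2) ℂ) * (h : Matrix (Fin 2) (Fin 2) ℂ).conjTranspose
      = (iwaP (rhoP h) : Matrix (Fin 2) (Fin 2) ℂ)
        * (iwaP (rhoP h) : Matrix (Fin 2) (Fin 2) ℂ).conjTranspose := by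
  have hd := norm_det_pos315 h
  have hn := botN_pos315 h
  have hN := botN_mul_self_C315 (h : Matrix (Fin 2) (Fin 2) ℂ)
  have hD := norm_det_mul_self_C315 (h : Matrix (Fin 2) (Fin 2) ℂ)
  have hdC : ((‖(h : Matrix (Fin 2) (Fin 2) ℂ).det‖ : ℝ) : ℂ) ≠ 0 := by
    exact_mod_cast hd.ne'
  have hnC : ((botN (h : Matrix (Fin 2) (Fin 2) ℂ) : ℝ) : ℂ) ≠ 0 := by
    exact_mod_cast hn.ne'
  have hx : (rhoP h).xc
      = ((h : Matrix (Fin 2) (Fin 2) ℂ) 0 0 * conj ((h : Matrix (Fin 2) (Fin 2) ℂ) 1 0)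
        + (h : Matrix (Fin 2) (Fin 2) ℂ) 0 1 * conj ((h : Matrix (Fin 2) (Fin 2) ℂ) 1 1))
      / ((‖(h : Matrix (Fin 2) (Fin 2) ℂ).det‖ : ℝ) : ℂ) := rfl
  rw [iwaP_coe, exp_s1_rhoP, exp_s2_rhoP, hx]
  generalize (h : Matrix (Fin 2) (Fin 2) ℂ) = M at *
  ext i j
  fin_cases i <;> fin_cases j
  · simp only [Matrix.mul_apply, Matrix.conjTranspose_apply, Fin.sum_univ_two, Matrix.of_apply,
      Matrix.cons_val', Matrix.cons_val_zero, Matrix.cons_val_one, Matrix.cons_val_fin_one,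
      Fin.zero_eta, Fin.isValue, Complex.star_def, map_mul, map_div₀, map_add,
      Complex.conj_ofReal, Complex.conj_conj]
    push_cast
    field_simp
    linear_combination (M 0 0 * conj (M 0 0) + M 0 1 * conj (M 0 1)) * hN - hD
  · simp only [Matrix.mul_apply, Matrix.conjTranspose_apply, Fin.sum_univ_two, Matrix.of_apply,
      Matrix.cons_val', Matrix.cons_val_zero, Matrix.cons_val_one, Matrix.cons_val_fin_one,
      Fin.zero_eta, Fin.mk_one, Fin.isValue, Complex.star_def, map_mul, map_div₀, map_add,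
      Complex.conj_ofReal, Complex.conj_conj, map_zero, mul_zero, zero_add]
    push_cast
    field_simp
  · simp only [Matrix.mul_apply, Matrix.conjTranspose_apply, Fin.sum_univ_two, Matrix.of_apply,
      Matrix.cons_val', Matrix.cons_val_zero, Matrix.cons_val_one, Matrix.cons_val_fin_one,
      Fin.zero_eta, Fin.mk_one, Fin.isValue, Complex.star_def, map_mul, map_div₀, map_add,
      Complex.conj_ofReal, Complex.conj_conj, map_zero, mul_zero, zero_add, zero_mul]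
    push_cast
    field_simp
  · simp only [Matrix.mul_apply, Matrix.conjTranspose_apply, Fin.sum_univ_two, Matrix.of_apply,
      Matrix.cons_val', Matrix.cons_val_zero, Matrix.cons_val_one, Matrix.cons_val_fin_one,
      Fin.mk_one, Fin.isValue, Complex.star_def, map_mul, map_div₀, map_add,
      Complex.conj_ofReal, Complex.conj_conj, map_zero, mul_zero, zero_add, zero_mul]
    linear_combination -hN

/-- **Iwasawa decomposition**: `h = iwaP (rhoP h) * k` with `k ∈ U(2)`. -/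
theorem exists_unitary_rhoP (h : GL (Fin 2) ℂ) :
    ∃ k : GL (Fin 2) ℂ, IsUnitary2 k ∧ h = iwaP (rhoP h) * k := by
  refine ⟨(iwaP (rhoP h))⁻¹ * h, ?_, by group⟩
  unfold IsUnitary2
  have hp1 : (((iwaP (rhoP h))⁻¹ : GL (Fin 2) ℂ) : Matrix (Fin 2) (Fin 2) ℂ)
      * (iwaP (rhoP h) : Matrix (Fin 2) (Fin 2) ℂ) = 1 := by
    rw [← Units.val_mul, inv_mul_cancel, Units.val_one]
  rw [Units.val_mul, Matrix.conjTranspose_mul]
  calc (((iwaP (rhoP h))⁻¹ : GL (Fin 2) ℂ) : Matrix (Fin 2) (Fin 2) ℂ)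
        * (h : Matrix (Fin 2) (Fin 2) ℂ)
        * ((h : Matrix (Fin 2) (Fin 2) ℂ).conjTranspose
          * (((iwaP (rhoP h))⁻¹ : GL (Fin 2) ℂ) : Matrix (Fin 2) (Fin 2) ℂ).conjTranspose)
      = (((iwaP (rhoP h))⁻¹ : GL (Fin 2) ℂ) : Matrix (Fin 2) (Fin 2) ℂ)
        * ((h : Matrix (Fin 2) (Fin 2) ℂ) * (h : Matrix (Fin 2) (Fin 2) ℂ).conjTranspose)
        * (((iwaP (rhoP h))⁻¹ : GL (Fin 2) ℂ) : Matrix (Fin 2) (Fin 2) ℂ).conjTranspose := by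
        simp only [Matrix.mul_assoc]
    _ = ((((iwaP (rhoP h))⁻¹ : GL (Fin 2) ℂ) : Matrix (Fin 2) (Fin 2) ℂ)
          * (iwaP (rhoP h) : Matrix (Fin 2) (Fin 2) ℂ))
        * ((((iwaP (rhoP h))⁻¹ : GL (Fin 2) ℂ) : Matrix (Fin 2) (Fin 2) ℂ)
          * (iwaP (rhoP h) : Matrix (Fin 2) (Fin 2) ℂ)).conjTranspose := by
        rw [gram_rhoP h, Matrix.conjTranspose_mul]
        simp only [Matrix.mul_assoc]
    _ = 1 := by rw [hp1]; simp

/-- A right `U(2)`-invariant function factors through the Iwasawa projection. -/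
theorem eq_comp_rhoP {α : Type*} (Φ : GL (Fin 2) ℂ → α)
    (hΦ : ∀ k h : GL (Fin 2) ℂ, IsUnitary2 k → Φ (h * k) = Φ h) (h : GL (Fin 2) ℂ) :
    Φ h = Φ (iwaP (rhoP h)) := by
  obtain ⟨k, hk, hh⟩ := exists_unitary_rhoP h
  conv_lhs => rw [hh]
  exact hΦ k _ hk

theorem rhoP_one : rhoP 1 = 1 := by
  ext
  · simp [rhoP, botN]
  · simp [rhoP, botN]
  · simp [rhoP]

theorem rhoP_iwaP (p : Pc) : rhoP (iwaP p) = p := by
  have := rhoP_mul p 1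
  rwa [mul_one, rhoP_one, mul_one] at this

end Fermat.Agent.LT.T3.H315

end
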