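import Fermat.Agent.LT.T3.H315.IwaTop

/-!
# Row LT, tower T3, leaf AS.2.5 `IwaC` (registry 1176, helper315) -- part 3: measures

OFF-MAIN.  Mathlib only.

* Lebesgue measure in the coordinates `(s, x)` is a left Haar measure of the group `Pc`
  (left translations are shears: `MeasurePreserving.skew_product`);
* the image of a Haar measure of `GL₂(ℂ)` under the Iwasawa projection is a left invariant
  measure of `Pc`, finite on compact sets;
* uniqueness of the Haar measure of `Pc` gives **`iwaC315 : IwaC`**.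
-/

set_option autoImplicit false
set_option linter.unusedSimpArgs false
set_option linter.style.haveILetI false
set_option linter.unusedSectionVars false

open MeasureTheory
open Fermat.Agent.LT.H556.A0 Fermat.Agent.LT.T3.AS Fermat.Agent.LT.T3.H614
open scoped ComplexConjugate Pointwise

noncomputable section

namespace Fermat.Agent.LT.T3.H315

namespace Pc

instance : MeasureSpace Pc := inferInstanceAs (MeasureSpace ((ℝ × ℝ) × ℂ))

theorem volume_eq_prod :
    (volume : Measure Pc) = ((volume : Measure (ℝ × ℝ)).prod (volume : Measure ℂ)) := rfl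

instance : IsFiniteMeasureOnCompacts (volume : Measure Pc) :=
  inferInstanceAs (IsFiniteMeasureOnCompacts (volume : Measure ((ℝ × ℝ) × ℂ)))

instance : Measure.IsOpenPosMeasure (volume : Measure Pc) :=
  inferInstanceAs (Measure.IsOpenPosMeasure (volume : Measure ((ℝ × ℝ) × ℂ)))

/-- Left translations of `Pc` preserve Lebesgue measure (they are shears). -/
theorem measurePreserving_mul_left315 (b : Pc) :
    MeasurePreserving (fun q : Pc => b * q) volume volume := by
  have hf : MeasurePreserving (fun s : ℝ × ℝ => (b.s1, b.s2) + s) volume volume :=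
    measurePreserving_add_left volume _
  have hgm : Measurable (Function.uncurry fun (s : ℝ × ℝ) (x : ℂ) =>
      x + ((Real.exp (s.2 - s.1) : ℝ) : ℂ) * b.xc) := by
    apply Continuous.measurable
    unfold Function.uncurry
    refine continuous_snd.add (Continuous.mul ?_ continuous_const)
    exact Complex.continuous_ofReal.comp (Real.continuous_exp.comp
      (continuous_fst.snd.sub continuous_fst.fst))
  have hg : ∀ᵐ s : ℝ × ℝ ∂volume, Measure.map (fun x : ℂ =>
      x + ((Real.exp (s.2 - s.1) : ℝ) : ℂ) * b.xc) (volume : Measure ℂ) = volume :=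
    Filter.Eventually.of_forall fun s => map_add_right_eq_self _ _
  have h := MeasurePreserving.skew_product hf hgm hg
  have e : (fun q : Pc => b * q)
      = fun p : (ℝ × ℝ) × ℂ => ((b.s1, b.s2) + p.1,
          p.2 + ((Real.exp (p.1.2 - p.1.1) : ℝ) : ℂ) * b.xc) := by
    funext q
    rfl
  rw [e]
  exact h

instance : Measure.IsMulLeftInvariant (volume : Measure Pc) :=
  ⟨fun b => (measurePreserving_mul_left315 b).map_eq⟩

instance : Measure.IsHaarMeasure (volume : Measure Pc) := {}

end Pc

section Main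

variable [MeasurableSpace (GL (Fin 2) ℂ)] [BorelSpace (GL (Fin 2) ℂ)]

theorem measurable_rhoP : Measurable rhoP := continuous_rhoP.measurable

/-- The image of a left invariant measure under the Iwasawa projection is left invariant. -/
theorem isMulLeftInvariant_map_rhoP (μ : Measure (GL (Fin 2) ℂ)) [μ.IsMulLeftInvariant] :
    (μ.map rhoP).IsMulLeftInvariant := by
  refine ⟨fun b => ?_⟩
  have hb : Measurable fun q : Pc => b * q := (continuous_const.mul continuous_id).measurable
  have hl : Measurable fun h : GL (Fin 2) ℂ => iwaP b * h :=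
    (continuous_const.mul continuous_id).measurable
  rw [Measure.map_map hb measurable_rhoP]
  have e : (fun q : Pc => b * q) ∘ rhoP = rhoP ∘ fun h : GL (Fin 2) ℂ => iwaP b * h := by
    funext h
    exact (rhoP_mul b h).symm
  rw [e, ← Measure.map_map measurable_rhoP hl, map_mul_left_eq_self]

/-- The image of a Haar measure under the Iwasawa projection is finite on compact sets. -/
theorem isFiniteMeasureOnCompacts_map_rhoP (μ : Measure (GL (Fin 2) ℂ))
    [IsFiniteMeasureOnCompacts μ] : IsFiniteMeasureOnCompacts (μ.map rhoP) := by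
  refine ⟨fun C hC => ?_⟩
  obtain ⟨T, hT, hsub⟩ := exists_isCompact_preimage_rhoP hC
  rw [Measure.map_apply measurable_rhoP hC.measurableSet]
  exact lt_of_le_of_lt (measure_mono hsub) hT.measure_lt_top

/-- `Φ ∘ iwaP` has compact support. -/
theorem hasCompactSupport_comp_iwaP {Φ : GL (Fin 2) ℂ → ℂ} (hΦ : HasCompactSupport Φ) :
    HasCompactSupport fun p : Pc => Φ (iwaP p) := by
  refine HasCompactSupport.intro (hΦ.image continuous_rhoP) ?_
  intro p hp
  apply image_eq_zero_of_notMem_tsupport
  intro hmem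
  exact hp ⟨iwaP p, hmem, rhoP_iwaP p⟩

/-- The Iwasawa integration formula for a given Haar measure. -/
theorem iwa_formula315 (μ : Measure (GL (Fin 2) ℂ)) [μ.IsHaarMeasure] :
    ∃ c : ℝ, 0 < c ∧ ∀ Φ : GL (Fin 2) ℂ → ℂ, Continuous Φ → HasCompactSupport Φ →
      (∀ k h : GL (Fin 2) ℂ, IsUnitary2 k → Φ (h * k) = Φ h) →
      ∫ h, Φ h ∂μ = (c : ℂ) * ∫ s : ℝ × ℝ, ∫ x : ℂ, Φ (iwa s x) := by
  haveI := isMulLeftInvariant_map_rhoP μ
  haveI := isFiniteMeasureOnCompacts_map_rhoP μ
  have hν : μ.map rhoP = Measure.haarScalarFactor (μ.map rhoP) (volume : Measure Pc)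
      • (volume : Measure Pc) :=
    Measure.isMulLeftInvariant_eq_smul (μ.map rhoP) volume
  set c := Measure.haarScalarFactor (μ.map rhoP) (volume : Measure Pc) with hc
  have hc0 : c ≠ 0 := by
    intro h0
    rw [h0, zero_smul] at hν
    have h1 : (μ.map rhoP) Set.univ = 0 := by rw [hν]; simp
    rw [Measure.map_apply measurable_rhoP MeasurableSet.univ, Set.preimage_univ] at h1
    exact (isOpen_univ.measure_pos μ Set.univ_nonempty).ne' h1
  refine ⟨(c : ℝ), by positivity, ?_⟩
  intro Φ hΦc hΦs hΦk
  have hcomp : Continuous fun p : Pc => Φ (iwaP p) := hΦc.comp continuous_iwaP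
  have hint : Integrable (fun p : Pc => Φ (iwaP p)) (volume : Measure Pc) :=
    hcomp.integrable_of_hasCompactSupport (hasCompactSupport_comp_iwaP hΦs)
  calc ∫ h, Φ h ∂μ = ∫ h, (fun p : Pc => Φ (iwaP p)) (rhoP h) ∂μ :=
        integral_congr_ae (Filter.Eventually.of_forall fun h => eq_comp_rhoP Φ hΦk h)
    _ = ∫ p, Φ (iwaP p) ∂(μ.map rhoP) :=
        (integral_map measurable_rhoP.aemeasurable hcomp.aestronglyMeasurable).symm
    _ = ∫ p, Φ (iwaP p) ∂(c • (volume : Measure Pc)) := by rw [← hν]
    _ = (c : ℝ) • ∫ p, Φ (iwaP p) ∂(volume : Measure Pc) := by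
        rw [integral_smul_nnreal_measure]
        rfl
    _ = (c : ℂ) * ∫ s : ℝ × ℝ, ∫ x : ℂ, Φ (iwa s x) := by
        have hint' : Integrable (fun z : (ℝ × ℝ) × ℂ => Φ (iwa z.1 z.2))
            ((volume : Measure (ℝ × ℝ)).prod (volume : Measure ℂ)) := hint
        have key : ∫ p : Pc, Φ (iwaP p) ∂(volume : Measure Pc)
            = ∫ s : ℝ × ℝ, ∫ x : ℂ, Φ (iwa s x) :=
          integral_prod (fun z : (ℝ × ℝ) × ℂ => Φ (iwa z.1 z.2)) hint'
        rw [key, Complex.real_smul]

end Main

/-- **AS.2.5 `IwaC`** (registry 1176). -/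
theorem iwaC315 : IwaC := by
  letI : MeasurableSpace (GL (Fin 2) ℂ) := borel (GL (Fin 2) ℂ)
  haveI : BorelSpace (GL (Fin 2) ℂ) := ⟨rfl⟩
  haveI := locallyCompactSpace_GL2C315
  obtain ⟨c, hc, h⟩ := iwa_formula315 (Measure.haar : Measure (GL (Fin 2) ℂ))
  exact ⟨Measure.haar, inferInstance, c, hc, h⟩

end Fermat.Agent.LT.T3.H315

end
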