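import Fermat.Agent.LT.T3.H315.IwaAlg

/-!
# Row LT, tower T3, leaf AS.2.5 `IwaC` (registry 1176, helper315) -- part 2: topology

OFF-MAIN.  Mathlib only.

* `locallyCompactSpace_GL2C315` : `GL₂(ℂ)` (units topology) is locally compact;
* `isCompact_unitary315` : `U(2)` is compact in `GL₂(ℂ)`;
* `continuous_rhoP`, `continuous_iwaP`; `Pc` is a topological group;
* `isCompact_preimage_rhoP` : the preimage of a compact set under the Iwasawa projection is
  contained in a compact set.
-/

set_option autoImplicit false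
set_option linter.unusedSimpArgs false
set_option linter.style.haveILetI false

open Fermat.Agent.LT.H556.A0 Fermat.Agent.LT.T3.AS Fermat.Agent.LT.T3.H614
open scoped ComplexConjugate Pointwise

noncomputable section

namespace Fermat.Agent.LT.T3.H315

theorem locallyCompactSpace_M2C315 : LocallyCompactSpace (Matrix (Fin 2) (Fin 2) ℂ) :=
  inferInstanceAs (LocallyCompactSpace (Fin 2 → Fin 2 → ℂ))

theorem locallyCompactSpace_GL2C315 : LocallyCompactSpace (GL (Fin 2) ℂ) := by
  haveI := locallyCompactSpace_M2C315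
  exact (Units.isClosedEmbedding_embedProduct (α := Matrix (Fin 2) (Fin 2) ℂ)).locallyCompactSpace

/-- The closed unit polydisc of `M₂(ℂ)`. -/
def unitBox315 : Set (Matrix (Fin 2) (Fin 2) ℂ) := {M | ∀ i j, ‖M i j‖ ≤ 1}

theorem isCompact_unitBox315 : IsCompact unitBox315 := by
  have h : IsCompact (Set.pi Set.univ fun _ : Fin 2 =>
      Set.pi Set.univ fun _ : Fin 2 => Metric.closedBall (0 : ℂ) 1) :=
    isCompact_univ_pi fun _ => isCompact_univ_pi fun _ => isCompact_closedBall 0 1
  have e : unitBox315 = (Set.pi Set.univ fun _ : Fin 2 =>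
      Set.pi Set.univ fun _ : Fin 2 => Metric.closedBall (0 : ℂ) 1) := by
    ext M
    constructor
    · intro hM i _ j _
      simpa using hM i j
    · intro hM i j
      simpa using hM i (Set.mem_univ i) j (Set.mem_univ j)
  rw [e]
  exact h

/-- The entries of a unitary matrix are bounded by `1`. -/
theorem norm_entry_le_one_of_unitary315 (k : Matrix (Fin 2) (Fin 2) ℂ)
    (hk : k * k.conjTranspose = 1) (i j : Fin 2) : ‖k i j‖ ≤ 1 := by
  have h1 : ((hsq614 k : ℝ) : ℂ) = 2 := by
    rw [hsq614_eq_trace, hk]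
    simp [Matrix.trace, Fin.sum_univ_two]
  have h2 : hsq614 k = 2 := by exact_mod_cast h1
  have hrow : ∀ i : Fin 2, ‖k i 0‖ ^ 2 + ‖k i 1‖ ^ 2 = 1 := by
    intro i
    have := congrFun (congrFun hk i) i
    simp only [Matrix.mul_apply, Matrix.conjTranspose_apply, Fin.sum_univ_two, Matrix.one_apply_eq,
      Complex.star_def, Complex.mul_conj, Complex.normSq_eq_norm_sq] at this
    exact_mod_cast this
  have := hrow i
  fin_cases j
  · show ‖k i 0‖ ≤ 1
    nlinarith [norm_nonneg (k i 0), norm_nonneg (k i 1)]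
  · show ‖k i 1‖ ≤ 1
    nlinarith [norm_nonneg (k i 0), norm_nonneg (k i 1)]

theorem isClosed_unitary315 : IsClosed {k : GL (Fin 2) ℂ | IsUnitary2 k} := by
  have hc : Continuous fun k : GL (Fin 2) ℂ =>
      (k : Matrix (Fin 2) (Fin 2) ℂ) * (k : Matrix (Fin 2) (Fin 2) ℂ).conjTranspose :=
    Units.continuous_val.mul (Continuous.matrix_conjTranspose Units.continuous_val)
  exact isClosed_singleton.preimage hc

/-- **`U(2)` is compact in `GL₂(ℂ)`.** -/
theorem isCompact_unitary315 : IsCompact {k : GL (Fin 2) ℂ | IsUnitary2 k} := by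
  have hT : IsCompact (unitBox315 ×ˢ (MulOpposite.op '' unitBox315)) :=
    isCompact_unitBox315.prod (isCompact_unitBox315.image MulOpposite.continuous_op)
  have hpre := (Units.isClosedEmbedding_embedProduct
    (α := Matrix (Fin 2) (Fin 2) ℂ)).isCompact_preimage hT
  refine hpre.of_isClosed_subset isClosed_unitary315 ?_
  intro k hk
  have hk1 : (k : Matrix (Fin 2) (Fin 2) ℂ) * (k : Matrix (Fin 2) (Fin 2) ℂ).conjTranspose = 1 := hk
  have hk2 : (k : Matrix (Fin 2) (Fin 2) ℂ).conjTranspose * (k : Matrix (Fin 2) (Fin 2) ℂ) = 1 :=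
    mul_eq_one_comm.1 hk1
  have hinv : ((k⁻¹ : GL (Fin 2) ℂ) : Matrix (Fin 2) (Fin 2) ℂ)
      = (k : Matrix (Fin 2) (Fin 2) ℂ).conjTranspose := by
    have h3 : ((k⁻¹ : GL (Fin 2) ℂ) : Matrix (Fin 2) (Fin 2) ℂ) * (k : Matrix (Fin 2) (Fin 2) ℂ)
        = 1 := by rw [← Units.val_mul, inv_mul_cancel, Units.val_one]
    calc ((k⁻¹ : GL (Fin 2) ℂ) : Matrix (Fin 2) (Fin 2) ℂ)
        = ((k⁻¹ : GL (Fin 2) ℂ) : Matrix (Fin 2) (Fin 2) ℂ)
          * ((k : Matrix (Fin 2) (Fin 2) ℂ) * (k : Matrix (Fin 2) (Fin 2) ℂ).conjTranspose) := by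
          rw [hk1, Matrix.mul_one]
      _ = (k : Matrix (Fin 2) (Fin 2) ℂ).conjTranspose := by
          rw [← Matrix.mul_assoc, h3, Matrix.one_mul]
  refine ⟨fun i j => norm_entry_le_one_of_unitary315 _ hk1 i j, ?_⟩
  refine ⟨((k⁻¹ : GL (Fin 2) ℂ) : Matrix (Fin 2) (Fin 2) ℂ), ?_, rfl⟩
  intro i j
  rw [hinv]
  have hk3 : (k : Matrix (Fin 2) (Fin 2) ℂ).conjTranspose
      * ((k : Matrix (Fin 2) (Fin 2) ℂ).conjTranspose).conjTranspose = 1 := by
    rw [Matrix.conjTranspose_conjTranspose]; exact hk2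
  exact norm_entry_le_one_of_unitary315 _ hk3 i j

/-! ## Continuity -/

namespace Pc

theorem continuous_s1 : Continuous Pc.s1 :=
  show Continuous fun p : (ℝ × ℝ) × ℂ => p.1.1 from continuous_fst.fst

theorem continuous_s2 : Continuous Pc.s2 :=
  show Continuous fun p : (ℝ × ℝ) × ℂ => p.1.2 from continuous_fst.snd

theorem continuous_xc : Continuous Pc.xc :=
  show Continuous fun p : (ℝ × ℝ) × ℂ => p.2 from continuous_snd

theorem continuous_mk {X : Type*} [TopologicalSpace X] {f g : X → ℝ} {u : X → ℂ}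
    (hf : Continuous f) (hg : Continuous g) (hu : Continuous u) :
    Continuous fun t => Pc.mk (f t) (g t) (u t) :=
  show Continuous fun t => (((f t, g t), u t) : (ℝ × ℝ) × ℂ) from (hf.prodMk hg).prodMk hu

instance : IsTopologicalGroup Pc where
  continuous_mul := by
    have h1 : Continuous fun z : Pc × Pc => z.1.s1 + z.2.s1 :=
      (continuous_s1.comp continuous_fst).add (continuous_s1.comp continuous_snd)
    have h2 : Continuous fun z : Pc × Pc => z.1.s2 + z.2.s2 :=
      (continuous_s2.comp continuous_fst).add (continuous_s2.comp continuous_snd)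
    have h3 : Continuous fun z : Pc × Pc =>
        z.2.xc + ((Real.exp (z.2.s2 - z.2.s1) : ℝ) : ℂ) * z.1.xc := by
      refine (continuous_xc.comp continuous_snd).add (Continuous.mul ?_
        (continuous_xc.comp continuous_fst))
      exact Complex.continuous_ofReal.comp (Real.continuous_exp.comp
        ((continuous_s2.comp continuous_snd).sub (continuous_s1.comp continuous_snd)))
    exact continuous_mk h1 h2 h3
  continuous_inv := by
    have h3 : Continuous fun p : Pc => -(((Real.exp (p.s1 - p.s2) : ℝ) : ℂ) * p.xc) := by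
      refine (Continuous.mul ?_ continuous_xc).neg
      exact Complex.continuous_ofReal.comp (Real.continuous_exp.comp
        (continuous_s1.sub continuous_s2))
    exact continuous_mk continuous_s1.neg continuous_s2.neg h3

end Pc

theorem continuous_entry315 (i j : Fin 2) :
    Continuous fun h : GL (Fin 2) ℂ => (h : Matrix (Fin 2) (Fin 2) ℂ) i j :=
  Units.continuous_val.matrix_elem i j

theorem continuous_norm_det315 :
    Continuous fun h : GL (Fin 2) ℂ => ‖(h : Matrix (Fin 2) (Fin 2) ℂ).det‖ :=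
  (Continuous.matrix_det Units.continuous_val).norm

theorem continuous_botN315 :
    Continuous fun h : GL (Fin 2) ℂ => botN (h : Matrix (Fin 2) (Fin 2) ℂ) := by
  unfold botN
  exact Real.continuous_sqrt.comp
    (((continuous_entry315 1 0).norm.pow 2).add ((continuous_entry315 1 1).norm.pow 2))

/-- The Iwasawa projection is continuous. -/
theorem continuous_rhoP : Continuous rhoP := by
  unfold rhoP
  refine Pc.continuous_mk ?_ ?_ ?_
  · exact (continuous_norm_det315.log fun h => (norm_det_pos315 h).ne').sub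
      (continuous_botN315.log fun h => (botN_pos315 h).ne')
  · exact continuous_botN315.log fun h => (botN_pos315 h).ne'
  · refine Continuous.div ?_ (Complex.continuous_ofReal.comp continuous_norm_det315) ?_
    · exact ((continuous_entry315 0 0).mul
        (Complex.continuous_conj.comp (continuous_entry315 1 0))).add
        ((continuous_entry315 0 1).mul (Complex.continuous_conj.comp (continuous_entry315 1 1)))
    · intro h
      exact_mod_cast (norm_det_pos315 h).ne'

theorem iwaP_inv_coe (p : Pc) :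
    (((iwaP p)⁻¹ : GL (Fin 2) ℂ) : Matrix (Fin 2) (Fin 2) ℂ)
      = !![((Real.exp (-p.s1) : ℝ) : ℂ), -(((Real.exp (-p.s2) : ℝ) : ℂ) * p.xc);
          0, ((Real.exp (-p.s2) : ℝ) : ℂ)] := by
  have h : iwaP p * iwaP p⁻¹ = 1 := by rw [← iwaP_mul, mul_inv_cancel]; exact congrArg iwaP rfl |>.trans (by
    apply Units.ext
    rw [iwaP_coe]
    ext i j
    fin_cases i <;> fin_cases j <;> simp)
  have h2 : (iwaP p)⁻¹ = iwaP p⁻¹ := inv_eq_of_mul_eq_one_right h
  rw [h2, iwaP_coe]
  ext i j
  fin_cases i <;> fin_cases j <;> simp [Real.exp_sub, Real.exp_neg]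
  have e1 : Complex.exp (p.s1 : ℂ) ≠ 0 := Complex.exp_ne_zero _
  have e2 : Complex.exp (p.s2 : ℂ) ≠ 0 := Complex.exp_ne_zero _
  field_simp

/-- The chart is continuous. -/
theorem continuous_iwaP : Continuous iwaP := by
  have hexp : ∀ {f : Pc → ℝ}, Continuous f → Continuous fun p => ((Real.exp (f p) : ℝ) : ℂ) :=
    fun hf => Complex.continuous_ofReal.comp (Real.continuous_exp.comp hf)
  rw [Units.continuous_iff]
  constructor
  · show Continuous fun p : Pc => ((iwaP p : GL (Fin 2) ℂ) : Matrix (Fin 2) (Fin 2) ℂ)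
    simp_rw [iwaP_coe]
    refine continuous_matrix ?_
    intro i j
    fin_cases i <;> fin_cases j
    · exact hexp Pc.continuous_s1
    · exact (hexp Pc.continuous_s1).mul Pc.continuous_xc
    · exact continuous_const
    · exact hexp Pc.continuous_s2
  · show Continuous fun p : Pc => (((iwaP p)⁻¹ : GL (Fin 2) ℂ) : Matrix (Fin 2) (Fin 2) ℂ)
    simp_rw [iwaP_inv_coe]
    refine continuous_matrix ?_
    intro i j
    fin_cases i <;> fin_cases j
    · exact hexp Pc.continuous_s1.neg
    · exact ((hexp Pc.continuous_s2.neg).mul Pc.continuous_xc).neg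
    · exact continuous_const
    · exact hexp Pc.continuous_s2.neg

/-- The preimage of a compact set under the Iwasawa projection lies in a compact set. -/
theorem exists_isCompact_preimage_rhoP {C : Set Pc} (hC : IsCompact C) :
    ∃ T : Set (GL (Fin 2) ℂ), IsCompact T ∧ rhoP ⁻¹' C ⊆ T := by
  refine ⟨(iwaP '' C) * {k : GL (Fin 2) ℂ | IsUnitary2 k},
    (hC.image continuous_iwaP).mul isCompact_unitary315, ?_⟩
  intro h hh
  obtain ⟨k, hk, hhk⟩ := exists_unitary_rhoP h
  exact ⟨iwaP (rhoP h), ⟨rhoP h, hh, rfl⟩, k, hk, hhk.symm⟩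

end Fermat.Agent.LT.T3.H315

end
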